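import Fermat.Agent.GS.Iface

/-!
# Project LP / S33: Kummer classes with `n = p` at a place above `p` (shared definitions)

Only definitions.  `A` is a valuation subring of `Q̄` above `p`.

* `DepthAt N n A d y` : up to an `n`-th power of `FF Q̄ N`, `y` is a quotient `a / b` with `a`
  primitive, `b` integral and `a ≡ b` modulo the constant `d`: the class of `y` has depth
  `≥ v(d)` at the Gauss valuation attached to `A`.  (`GS.TrivAt` is `∃ d ∈ 𝔪_A, DepthAt d`.)
* `DeepAt N p A y` : depth `> p v(ζ - 1) = p e / (p - 1)`: the class is trivial in the completion.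
* `SmoothCruxP`, `NodalInertiaP` : the two exports of LP-NOD at the level of `Q̄`.
-/

set_option autoImplicit false

noncomputable section

namespace Fermat.Agent.LP

open Fermat.Agent.GR ModularCurve

/-- The class of `y` modulo `n`-th powers has depth `≥ v(d)` at the Gauss valuation of `A`. -/
def DepthAt (N n : ℕ) (A : ValuationSubring Qbar) (d : Qbar) (y : LaurentSeries Qbar) : Prop :=
  ∃ a b : LaurentSeries Qbar, a ∈ FF Qbar N ∧ b ∈ FF Qbar N ∧ IsPrim A a ∧ IsInt A b ∧
    (∀ m : ℤ, ∃ r ∈ A, a.coeff m - b.coeff m = d * r) ∧ KummerEquiv N n y (a / b)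

/-- The class of `y` modulo `p`-th powers has depth `> p v(ζ - 1)`. -/
def DeepAt (N p : ℕ) (A : ValuationSubring Qbar) (y : LaurentSeries Qbar) : Prop :=
  ∃ ζ d : Qbar, IsPrimitiveRoot ζ p ∧ d ∈ A.nonunits ∧ DepthAt N p A ((ζ - 1) ^ p * d) y

/-- (export of LP-NOD, smooth model) a Kummer class of level `M0` prime to `p` which is deep at `A`
is trivial. -/
def SmoothCruxP (p M0 : ℕ) (A : ValuationSubring Qbar) : Prop :=
  ∀ y : LaurentSeries Qbar, IsKummer (N := M0) p y → DeepAt M0 p A y → KummerEquiv M0 p 1 y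

/-- (export of LP-NOD, nodal model) on a Kummer class of level `p * M0` which is deep on both
components of the fibre at `A` the inertia group acts through the cyclotomic character. -/
def NodalInertiaP (p M0 : ℕ) (A : ValuationSubring Qbar) : Prop :=
  ∀ w : FF Qbar (p * M0) ≃ₐ[Qbar] FF Qbar (p * M0), GS.IsWQ Qbar p M0 w →
    ∀ y : FF Qbar (p * M0), IsKummer (N := p * M0) p (y : LaurentSeries Qbar) →
      DeepAt (p * M0) p A y → DeepAt (p * M0) p A (w y : FF Qbar (p * M0)) →
      ∀ τ : Qbar ≃ₐ[ℚ] Qbar, τ ∈ A.inertiaSubgroupIn ℚ →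
        ∀ c : ℕ, (∀ μ : Qbar, μ ^ p = 1 → τ μ = μ ^ c) →
          KummerEquiv (p * M0) p ((y : LaurentSeries Qbar) ^ c) (gal τ y)

end Fermat.Agent.LP
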