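import Fermat.Agent.S33.Iface
import Fermat.Agent.LP.EIS.Defs
import Fermat.Agent.LP.Gal.ECDefs
import Fermat.Agent.GR.S.R.LDefs
import Fermat.Prelude.Def_CuspForm_HeckeAlgebra
import Fermat.Prelude.Def_FreyPackage_IsConductorLevel

/-!
# Project LP (S44): the interface between the modules and LP-TOP

Only definitions.  `p ≥ 5` prime, `N = p * M0`, `p ∤ M0`, `N1 = p * (4 * M0)` the auxiliary level,
`A` a valuation subring of `Q̄` above `p`, `I = A.inertiaSubgroupIn ℚ`.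

COMMON LANGUAGE for "local on the special fibre": valuation subrings `V ≤ 𝒪` of `FF Q̄ N'`, `𝒪` the
Gauss ring (`GR.S.R.IsGaussRing A N' 𝒪`).  They are `𝒪` itself and the composites of `𝒪` with the
places of its residue field.  `PDivAt V p y` : the value of `y` at `V` is divisible by `p`.

* `HasChi p M0 S0 a` : the eigensystem `a` mod `p` occurs at level `M0`.
* `IsEig N p S0 a y` : the Kummer class of `y` is an eigenvector of all `T_ℓ`, `ℓ ∉ S0`.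
* `KumEmb`, `GalOut` : output of LP-GAL (+ `wEnd` of LP-NEW).     * `NewOut` : output of LP-NEW.
* `PeuAt`, `PLOut` : output of LP-PL.     * `EisOut` : output of LP-EIS.
* `OldOut` : output of LP-DESC + LP-OLD.     * `FinOut` : output of LP-FIN.
* `FreyOut`, `UnrOut` : output of LP-FREY / GT-W.     * `TorOut` : card, det, Frobenius relation.
-/

set_option autoImplicit false
set_option synthInstance.maxHeartbeats 400000

noncomputable section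

open WeierstrassCurve WeierstrassCurve.Affine WeierstrassCurve.Affine.Point

namespace Fermat.Agent.LP

open Fermat.Agent.GR ModularCurve
open Fermat.Agent.GR.H (GQ)

/-- The value of `y` at `V` is divisible by `p` in the value group of `V`. -/
def PDivAt {F : Type*} [Field F] (V : ValuationSubring F) (p : ℕ) (y : F) : Prop :=
  ∃ a : F, a ≠ 0 ∧ a ^ p * y ∈ V ∧ (a ^ p * y)⁻¹ ∈ V

/-- The system of eigenvalues `a` modulo `p` occurs at level `M0` (Hecke operators outside `S0`). -/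
def HasChi (p M0 : ℕ) [NeZero M0] (S0 : Set ℕ) (a : ℕ → ℤ) : Prop :=
  ∃ χ : CuspForm.heckeAlgebra M0 2 S0 →+* ZMod p,
    ∀ (ℓ : ℕ) (hℓ : ℓ.Prime) (hℓN : ¬ ℓ ∣ M0) (hℓS : ℓ ∉ S0),
      χ (CuspForm.heckeAlgebra.T hℓ hℓN hℓS) = (a ℓ : ZMod p)

/-- The class of `y` modulo `p`-th powers of `FF Q̄ N` is an eigenvector of `T_ℓ` with eigenvalue
`a ℓ`, for all primes `ℓ ∉ S0`. -/
def IsEig (N p : ℕ) (S0 : Set ℕ) (a : ℕ → ℤ) (y : LaurentSeries Qbar) : Prop :=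
  ∀ (ℓ : ℕ) [NeZero ℓ] (ζ : Qbarˣ), ℓ.Prime → ℓ ∉ S0 → IsPrimitiveRoot ζ ℓ →
    ∀ e : ℕ, (e : ZMod p) = (a ℓ : ZMod p) → KummerEquiv N p (heckeMulT ℓ ζ y) (y ^ e)

/-- The finite set of excluded primes: `2, 3, p`, the primes of `Δ(W)` and of `M0`. -/
def exc (W : WeierstrassCurve ℤ) (p M0 : ℕ) : Finset ℕ := Gal.badSet W p ∪ M0.primeFactors

/-- A Galois equivariant embedding of `E[p]` in the Kummer classes of level `N`, with values in the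
eigenspace of `a`. -/
structure KumEmb (E : WeierstrassCurve ℚ) (p N : ℕ) (S0 : Set ℕ) (a : ℕ → ℤ)
    (Φ : Gal.Tor E p → LaurentSeries Qbar) : Prop where
  kummer : ∀ x, IsKummer (N := N) p (Φ x)
  mul : ∀ x y, KummerEquiv N p (Φ (x + y)) (Φ x * Φ y)
  equiv : ∀ (σ : GQ) x, KummerEquiv N p (Φ (σ • x)) (gal σ (Φ x))
  inj : ∀ x, KummerEquiv N p 1 (Φ x) → x = 0
  eig : ∀ x, IsEig N p S0 a (Φ x)

/-- OUTPUT of LP-GAL (with the involution `w_p`; `s = 1` or `s = p - 1`, i.e. `w = ± 1`). -/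
def GalOut : Prop :=
  ∀ (p : ℕ) [Fact p.Prime] (M0 : ℕ) [NeZero (p * M0)], 5 ≤ p → ¬ p ∣ M0 →
    ∀ E : WeierstrassCurve ℚ, GaloisRepIsIrreducible (K := AlgebraicClosure ℚ) ℚ E p →
    ∀ W : WeierstrassCurve ℤ, W.Δ ≠ 0 → W.IsIntegralModelOf E →
      W.IsResiduallyModularOfLevel p (p * M0) →
    ∀ w : FF Qbar (p * M0) ≃ₐ[Qbar] FF Qbar (p * M0), GS.IsWQ Qbar p M0 w →
    ∃ (Φ : Gal.Tor E p → LaurentSeries Qbar) (s : ℕ),
      KumEmb E p (p * M0) (exc W p M0) W.apOfModel Φ ∧ (s = 1 ∨ s = p - 1) ∧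
      ∀ (x : Gal.Tor E p) (y : FF Qbar (p * M0)), (y : LaurentSeries Qbar) = Φ x →
        KummerEquiv (p * M0) p ((y : LaurentSeries Qbar) ^ s) (w y : FF Qbar (p * M0))

/-- OUTPUT of LP-NEW: if the eigensystem does not occur at level `M0`, the norm to level `M0` kills
the eigenspace. -/
def NewOut : Prop :=
  ∀ (p : ℕ) [NeZero p] (M0 : ℕ) [NeZero M0], p.Prime → 5 ≤ p → ¬ p ∣ M0 →
    ∀ (S0 : Finset ℕ) (a : ℕ → ℤ), (∀ ℓ : ℕ, ℓ.Prime → ℓ ∣ p * M0 → ℓ ∈ S0) →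
      ¬ HasChi p M0 (S0 : Set ℕ) a →
    ∀ w : FF Qbar (p * M0) ≃ₐ[Qbar] FF Qbar (p * M0), GS.IsWQ Qbar p M0 w →
    ∀ ζ : Qbarˣ, IsPrimitiveRoot ζ p →
    ∀ y : FF Qbar (p * M0), IsKummer (N := p * M0) p (y : LaurentSeries Qbar) →
      IsEig (p * M0) p (S0 : Set ℕ) a y →
      KummerEquiv (p * M0) p 1
        ((y : LaurentSeries Qbar) * normT p ζ ((w y : FF Qbar (p * M0)) : LaurentSeries Qbar))

/-- (PEU) the field cut out by the classes of `u1, u2` (and `μ_p`) over the fixed field of the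
inertia group is "peu ramifiée": a `p`-th root `y` of an element of the fixed field of `I` which
lies in that field has valuation in `v(p) ℤ`. -/
def PeuAt (N' p : ℕ) (A : ValuationSubring Qbar) (u1 u2 : LaurentSeries Qbar) : Prop :=
  ∀ y : Qbar, y ≠ 0 → (∀ σ ∈ A.inertiaSubgroupIn ℚ, σ (y ^ p) = y ^ p) →
    (∀ σ ∈ A.inertiaSubgroupIn ℚ, (∀ μ : Qbar, μ ^ p = 1 → σ μ = μ) →
      KummerEquiv N' p u1 (gal σ u1) → KummerEquiv N' p u2 (gal σ u2) → σ y = y) →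
    ∃ k : ℤ, A.valuation y = A.valuation (p : Qbar) ^ k

/-- OUTPUT of LP-PL (Picard-Lefschetz for `n = p`), at the auxiliary level `N1 = p * (4 * M0)`.
`u1` is deep on both components, inertia acts on it by the cyclotomic character, and
`(σ - 1) u2 ∈ ⟨u1⟩`.  Then the order of the reduction of `u2` is `≡ r` at all supersingular points
and `≡ 0` at all other points of the component `∞`. -/
def PLOut (p M0 : ℕ) [NeZero p] (A : ValuationSubring Qbar) : Prop :=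
  ∀ 𝒪 : ValuationSubring (FF Qbar (p * (4 * M0))), GR.S.R.IsGaussRing A (p * (4 * M0)) 𝒪 →
  ∀ w : FF Qbar (p * (4 * M0)) ≃ₐ[Qbar] FF Qbar (p * (4 * M0)), GS.IsWQ Qbar p (4 * M0) w →
  ∀ u1 u2 dd jj : FF Qbar (p * (4 * M0)),
    (dd : LaurentSeries Qbar) = EIS.dS Qbar p → (jj : LaurentSeries Qbar) = jqModC Qbar →
    IsKummer (N := p * (4 * M0)) p (u1 : LaurentSeries Qbar) →
    IsKummer (N := p * (4 * M0)) p (u2 : LaurentSeries Qbar) →
    DeepAt (p * (4 * M0)) p A u1 → DeepAt (p * (4 * M0)) p A (w u1 : FF Qbar (p * (4 * M0))) →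
    ¬ KummerEquiv (p * (4 * M0)) p 1 (u1 : LaurentSeries Qbar) →
    (∀ σ ∈ A.inertiaSubgroupIn ℚ, ∀ c : ℕ, (∀ μ : Qbar, μ ^ p = 1 → σ μ = μ ^ c) →
      KummerEquiv (p * (4 * M0)) p ((u1 : LaurentSeries Qbar) ^ c) (gal σ u1)) →
    (∀ σ ∈ A.inertiaSubgroupIn ℚ, ∃ b : ℕ,
      KummerEquiv (p * (4 * M0)) p ((u2 : LaurentSeries Qbar) * (u1 : LaurentSeries Qbar) ^ b)
        (gal σ u2)) →
    PeuAt (p * (4 * M0)) p A u1 u2 →
    ∃ r : ℕ, (∀ V : ValuationSubring (FF Qbar (p * (4 * M0))), V ≤ 𝒪 → jj ∈ V →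
        PDivAt V p (u2 ^ 12 / dd ^ r)) ∧
      ∀ V : ValuationSubring (FF Qbar (p * (4 * M0))), V ≤ 𝒪 → jj ∉ V → PDivAt V p u2

/-- OUTPUT of LP-EIS. -/
def EisOut (p M0 : ℕ) [NeZero p] (A : ValuationSubring Qbar) : Prop :=
  ∀ 𝒪 : ValuationSubring (FF Qbar (p * (4 * M0))), GR.S.R.IsGaussRing A (p * (4 * M0)) 𝒪 →
  ∀ u2 dd jj : FF Qbar (p * (4 * M0)),
    (dd : LaurentSeries Qbar) = EIS.dS Qbar p → (jj : LaurentSeries Qbar) = jqModC Qbar →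
    u2 ≠ 0 → ∀ r : ℕ,
    (∀ V : ValuationSubring (FF Qbar (p * (4 * M0))), V ≤ 𝒪 → jj ∈ V →
      PDivAt V p (u2 ^ 12 / dd ^ r)) →
    (∃ V : ValuationSubring (FF Qbar (p * (4 * M0))), V ≤ 𝒪 ∧ jj ∈ V ∧ ¬ PDivAt V p dd) →
    ∀ (ℓ : ℕ) [NeZero ℓ] (ζ : Qbarˣ), ℓ.Prime → ¬ ℓ ∣ p * (4 * M0) → IsPrimitiveRoot ζ ℓ →
    ∀ e : ℕ, KummerEquiv (p * (4 * M0)) p (heckeMulT ℓ ζ (u2 : LaurentSeries Qbar))
        ((u2 : LaurentSeries Qbar) ^ e) →
      (p : ℤ) ∣ (r : ℤ) * ((ℓ : ℤ) + 1 - e)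

/-- OUTPUT of LP-DESC + LP-OLD: an eigenclass of level `p * M0` whose reduction on the component
`∞` is not a constant times a `p`-th power but has a divisor divisible by `p` gives the eigensystem
at level `M0`. -/
def OldOut (p M0 : ℕ) [NeZero M0] (A : ValuationSubring Qbar) : Prop :=
  ∀ 𝒪 : ValuationSubring (FF Qbar (p * (4 * M0))), GR.S.R.IsGaussRing A (p * (4 * M0)) 𝒪 →
  ∀ (S0 : Finset ℕ) (a : ℕ → ℤ), (∀ ℓ : ℕ, ℓ.Prime → ℓ ∣ p * (4 * M0) → ℓ ∈ S0) →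
  ∀ u2 : FF Qbar (p * (4 * M0)), IsKummer (N := p * M0) p (u2 : LaurentSeries Qbar) →
    IsEig (p * M0) p (S0 : Set ℕ) a u2 → ¬ GS.TrivAt (p * M0) p A u2 →
    (∀ V : ValuationSubring (FF Qbar (p * (4 * M0))), V ≤ 𝒪 → PDivAt V p u2) →
    HasChi p M0 (S0 : Set ℕ) a

/-- OUTPUT of LP-FIN: Deligne-Serre lifting at level `M0`.  (The new integral model `W'` may be
chosen bad at `2, 3`: `a_i' = 6 ^ i a_i`.) -/
def FinOut : Prop :=
  ∀ (P : FreyPackage) (M0 : ℕ) [NeZero M0] (W : WeierstrassCurve ℤ),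
    W.IsIntegralModelOf P.freyCurve → HasChi P.p M0 (exc W P.p M0 : Set ℕ) W.apOfModel →
    P.ModularRepOfLevel M0

/-- OUTPUT of LP-FREY (`frey_peu_of_unram`). -/
def FreyOut : Prop :=
  ∀ P : FreyPackage, (P.p : ℤ) ∣ P.a * P.b * P.c →
    ∀ A : ValuationSubring Qbar, A.LiesOverPrime P.p →
    ∀ ζ : Qbar, IsPrimitiveRoot ζ P.p → ∀ y : Qbar, y ≠ 0 →
      (∀ σ ∈ A.inertiaSubgroupIn ℚ, σ (y ^ P.p) = y ^ P.p) →
      (∀ σ ∈ A.inertiaSubgroupIn ℚ, σ ζ = ζ →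
        (∀ Q : (P.freyCurve⁄(AlgebraicClosure ℚ)).Point, P.p • Q = 0 → σ • Q = Q) → σ y = y) →
      ∃ k : ℤ, A.valuation y = A.valuation (P.p : Qbar) ^ k

/-- What LP-TOP needs about `E[p]` (LP-GAL `Model`/`Trace`, module EL). -/
structure TorOut (E : WeierstrassCurve ℚ) (W : WeierstrassCurve ℤ) (p : ℕ) [Fact p.Prime] :
    Prop where
  card : Nat.card (Gal.Tor E p) = p ^ 2
  det : ∀ (ζ : Qbar), IsPrimitiveRoot ζ p → ∀ (g : GQ) (e : ℕ), g ζ = ζ ^ e →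
    LinearMap.det (Gal.rhoE E p g) = (e : ZMod p)
  frob : ∀ ℓ : ℕ, ℓ.Prime → ℓ ∉ Gal.badSet W p → ∀ (B : ValuationSubring Qbar) (σ : GQ),
    B.LiesOverPrime ℓ → B.IsFrobeniusAt σ ℓ →
    ∀ x : Gal.Tor E p, σ • σ • x - W.apOfModel ℓ • σ • x + (ℓ : ℤ) • x = 0

/-- OUTPUT of LP-GAL (`Model.lean`, `Trace.lean`) + EL. -/
def TorAll : Prop :=
  ∀ (p : ℕ) [Fact p.Prime], 5 ≤ p → ∀ E : WeierstrassCurve ℚ,
    GaloisRepIsIrreducible (K := AlgebraicClosure ℚ) ℚ E p →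
    ∀ W : WeierstrassCurve ℤ, W.Δ ≠ 0 → W.IsIntegralModelOf E → TorOut E W p

end Fermat.Agent.LP
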