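import Fermat.Agent.GS.WQ
import Fermat.Agent.GR.E.BR10
import Fermat.Agent.GR.E.BR8
import Fermat.Prelude.Thm_ModularCurve_coeff_jqModC_neg_one

/-!
# Project LP / S33: descent of cubes along `FF Q̄ N ⊆ FF Q̄ (2 N)` (`N` odd)

The degree is `3`, so `GR.E.kummerEquiv_descent` does not apply for `n = 3`.  But the extension is
not normal: `w₂` is `t ↦ t²` on `FF Q̄ N`; if `z ^ 3 = a ∈ FF Q̄ N` then `w₂ z` is a series in `t²`;
the elements `x` such that `w₂ x` is a series in `t²` form an intermediate field which is not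
everything (`w₂ (j(t²)) = j(t)`), so it is `FF Q̄ N` since the degree is prime.

More generally (`mem_FF_of_pow`): `r` prime, `r ∤ N`, `r + 1` prime, any exponent `n > 0`.
-/

set_option autoImplicit false
set_option synthInstance.maxHeartbeats 400000

noncomputable section

namespace Fermat.Agent.LP

open Fermat.Agent.GR Fermat.Agent.GR.E ModularCurve IntermediateField

/-- the field of series in `t ^ r`. -/
def D3range (r : ℕ) [NeZero r] : IntermediateField Qbar (LaurentSeries Qbar) :=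
  (qExpandAlgHomC Qbar r).fieldRange

theorem D3_mem_range {r : ℕ} [NeZero r] {x : LaurentSeries Qbar} :
    x ∈ D3range r ↔ ∃ y, qExpand Qbar r y = x := by
  unfold D3range
  rw [AlgHom.mem_fieldRange]
  rfl

/-- `j` is not a series in `t ^ r`, `r ≥ 2`. -/
theorem D3_j_not_mem {r : ℕ} [NeZero r] (hr : 2 ≤ r) : jqModC Qbar ∉ D3range r := by
  rw [D3_mem_range]
  rintro ⟨y, hy⟩
  have h1 := coeff_jqModC_neg_one Qbar
  rw [← hy, qExpand_coeff_of_not_dvd] at h1
  · exact zero_ne_one h1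
  · intro h
    have h2 : (r : ℤ) ∣ 1 := by simpa using (dvd_neg.2 h)
    have h3 := Int.le_of_dvd one_pos h2
    omega

/-- if `x ^ n = y ^ n` in a field containing `Q̄`, `y ≠ 0`, then `x` is a constant times `y`. -/
theorem D3_eq_const_mul {n : ℕ} (hn : 0 < n) (x y : LaurentSeries Qbar) (hy : y ≠ 0)
    (h : x ^ n = y ^ n) : ∃ c : Qbar, x = algebraMap Qbar (LaurentSeries Qbar) c * y := by
  have h1 : (x / y) ^ n = 1 := by
    rw [div_pow, h, div_self (pow_ne_zero _ hy)]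
  have hint : IsIntegral Qbar (x / y) :=
    ⟨Polynomial.X ^ n - 1, Polynomial.monic_X_pow_sub_C 1 hn.ne', by simp [h1]⟩
  have hdeg := IsAlgClosed.degree_eq_one_of_irreducible Qbar (minpoly.irreducible hint)
  obtain ⟨c, hc⟩ := minpoly.mem_range_of_degree_eq_one Qbar (x / y) hdeg
  exact ⟨c, by rw [hc]; field_simp⟩

/-- the elements `x` of `FF Q̄ (r N)` such that `w_r x` is a series in `t ^ r`. -/
def D3mid (r N : ℕ) [NeZero r] (w : FF Qbar (r * N) ≃ₐ[Qbar] FF Qbar (r * N)) :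
    IntermediateField Qbar (LaurentSeries Qbar) :=
  ((D3range r).comap ((FF Qbar (r * N)).val.comp (w : FF Qbar (r * N) →ₐ[Qbar] _))).map
    (FF Qbar (r * N)).val

theorem D3_mem_mid {r N : ℕ} [NeZero r] {w : FF Qbar (r * N) ≃ₐ[Qbar] FF Qbar (r * N)}
    {x : LaurentSeries Qbar} :
    x ∈ D3mid r N w ↔ ∃ hx : x ∈ FF Qbar (r * N),
      ((w ⟨x, hx⟩ : FF Qbar (r * N)) : LaurentSeries Qbar) ∈ D3range r := by
  unfold D3mid
  rw [IntermediateField.mem_map]
  constructor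
  · rintro ⟨y, hy, rfl⟩
    exact ⟨y.2, hy⟩
  · rintro ⟨hx, h⟩
    exact ⟨⟨x, hx⟩, h, rfl⟩

/-- **D3, general form.**  `r` prime, `r ∤ N`, `r + 1` prime: an element `z` of `FF Q̄ (r N)` with
`z ^ n ∈ FF Q̄ N` (`n > 0`) lies in `FF Q̄ N`. -/
theorem mem_FF_of_pow (N : ℕ) [NeZero N] (r : ℕ) (hr : r.Prime) (hrN : ¬ r ∣ N)
    (hr1 : (r + 1).Prime) {n : ℕ} (hn : 0 < n) (z : LaurentSeries Qbar)
    (hz : z ∈ FF Qbar (r * N)) (hzn : z ^ n ∈ FF Qbar N) : z ∈ FF Qbar N := by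
  have : NeZero r := ⟨hr.ne_zero⟩
  have : NeZero (r * N) := ⟨mul_ne_zero hr.ne_zero (NeZero.ne N)⟩
  obtain ⟨ι⟩ := GS.nonempty_Qbar_hom
  have hcop : r.Coprime N := (Nat.Prime.coprime_iff_not_dvd hr).2 hrN
  set w := GT.EMB.wQ Qbar r N with hwdef
  have hw : GS.IsWQ Qbar r N w := GS.isWQ_wQ ι hcop
  have hle : FF Qbar N ≤ FF Qbar (r * N) := BR8_FF_le Qbar (Dvd.intro_left r rfl)
  by_cases hz0 : z = 0
  · rw [hz0]; exact zero_mem _
  -- `FF N ≤ mid ≤ FF (r N)`
  have h1 : FF Qbar N ≤ D3mid r N w := by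
    intro x hx
    rw [D3_mem_mid]
    refine ⟨hle hx, ?_⟩
    rw [hw.apply_of_mem ι hcop ⟨x, hle hx⟩ hx, D3_mem_range]
    exact ⟨x, rfl⟩
  have h2 : D3mid r N w ≤ FF Qbar (r * N) := by
    intro x hx
    rw [D3_mem_mid] at hx
    exact hx.1
  -- `z` lies in the middle field
  have hzmid : z ∈ D3mid r N w := by
    rw [D3_mem_mid]
    refine ⟨hz, ?_⟩
    have h3 : ((w ⟨z, hz⟩ : FF Qbar (r * N)) : LaurentSeries Qbar) ^ n =
        (qExpand Qbar r z) ^ n := by
      have h4 := hw.apply_of_mem ι hcop (⟨z, hz⟩ ^ n) hzn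
      rw [map_pow] at h4
      rw [← map_pow]
      exact h4
    have h5 : qExpand Qbar r z ≠ 0 := by
      intro h
      exact hz0 (qExpand_injective r (by rw [h, map_zero]))
    obtain ⟨c, hc⟩ := D3_eq_const_mul hn _ _ h5 h3
    rw [hc]
    exact mul_mem (IntermediateField.algebraMap_mem _ c) (D3_mem_range.2 ⟨z, rfl⟩)
  -- the middle field is not everything
  have hne : ¬ FF Qbar (r * N) ≤ D3mid r N w := by
    intro h
    have hj : qExpand Qbar r (jqModC Qbar) ∈ FF Qbar (r * N) :=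
      jqModCd_mem_full Qbar (r * N) (Dvd.intro N rfl)
    obtain ⟨hx, h6⟩ := D3_mem_mid.1 (h hj)
    have : NeZero (r * 1) := ⟨by simpa using hr.ne_zero⟩
    have : NeZero (1 * 1) := ⟨by norm_num⟩
    have h7 := hw r 1 1 (mul_one r) (one_dvd N) ⟨_, hx⟩
      (qExpand_congr (mul_one r).symm _)
    rw [h7, qExpand_congr (one_mul 1), qExpand_one_apply] at h6
    exact D3_j_not_mem hr.two_le h6
  have hdeg := relfinrank_mul_relfinrank h1 h2
  have h3 : (FF Qbar N).relfinrank (FF Qbar (r * N)) = r + 1 := by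
    rw [mul_comm r N]
    exact relfinrank_FF_mul_prime N r hr hrN
  rw [h3] at hdeg
  have h8 : (D3mid r N w).relfinrank (FF Qbar (r * N)) ≠ 1 := fun h =>
    hne (relfinrank_eq_one_iff.1 h)
  have h9 : (FF Qbar N).relfinrank (D3mid r N w) = 1 := by
    rcases (Nat.dvd_prime hr1).1 (Dvd.intro_left _ hdeg) with h | h
    · exact absurd h h8
    · rw [h] at hdeg
      have : 0 < r + 1 := Nat.succ_pos r
      exact Nat.eq_of_mul_eq_mul_right this (by rw [hdeg, one_mul])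
  exact relfinrank_eq_one_iff.1 h9 hzmid

/-- **D3.**  `N` odd: an element of `FF Q̄ (2 N)` whose cube lies in `FF Q̄ N` lies in `FF Q̄ N`. -/
theorem mem_FF_of_cube (N : ℕ) [NeZero N] (hN : ¬ 2 ∣ N) (z : LaurentSeries Qbar)
    (hz : z ∈ FF Qbar (2 * N)) (hz3 : z ^ 3 ∈ FF Qbar N) : z ∈ FF Qbar N :=
  mem_FF_of_pow N 2 Nat.prime_two hN Nat.prime_three (by norm_num) z hz hz3

/-- Descent of `KummerEquiv` along `FF Q̄ N ⊆ FF Q̄ (r N)`, `r` and `r + 1` prime (i.e. `r = 2`),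
for every exponent `n > 0`. -/
theorem kummerEquiv_descent_prime (N : ℕ) [NeZero N] (r : ℕ) (hr : r.Prime) (hrN : ¬ r ∣ N)
    (hr1 : (r + 1).Prime) {n : ℕ} (hn : 0 < n) (a b : LaurentSeries Qbar)
    (ha : a ∈ FF Qbar N) (hb : b ∈ FF Qbar N) (hb0 : b ≠ 0)
    (h : KummerEquiv (r * N) n b a) : KummerEquiv N n b a := by
  obtain ⟨z, hz, hz0, haz⟩ := h
  refine ⟨z, mem_FF_of_pow N r hr hrN hr1 hn z hz ?_, hz0, haz⟩
  have : z ^ n = a / b := by rw [haz]; field_simp
  rw [this]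
  exact div_mem ha hb

/-- Descent of `KummerEquiv` for `n = 3` (or any `n > 0`) from level `2 N` to level `N`, `N` odd. -/
theorem kummerEquiv_descent_two (N : ℕ) [NeZero N] (hN : ¬ 2 ∣ N) {n : ℕ} (hn : 0 < n)
    (a b : LaurentSeries Qbar) (ha : a ∈ FF Qbar N) (hb : b ∈ FF Qbar N) (hb0 : b ≠ 0)
    (h : KummerEquiv (2 * N) n b a) : KummerEquiv N n b a :=
  kummerEquiv_descent_prime N 2 Nat.prime_two hN Nat.prime_three hn a b ha hb hb0 h

end Fermat.Agent.LP
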